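import Fermat.Agent.PlaneBertini.Main
import Mathlib.RingTheory.MvPolynomial.Homogeneous

/-!
# The three charts of the projective plane

Setting a variable to `1` identifies the forms of degree `d` with the polynomials of degree at
most `d`, and commutes with the two other partial derivatives.
-/

set_option autoImplicit false
set_option linter.style.openClassical false
set_option linter.style.haveILetI false
set_option linter.unusedSectionVars false

noncomputable section

open scoped Classical

namespace FA.ProjBertini

open MvPolynomial FA.PlaneBertini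

variable {k : Type*} [Field k]

/-- Dehomogenise at the variable `j`. -/
def deh (j : Fin 3) : MvPolynomial (Fin 3) k →ₐ[k] MvPolynomial (Fin 2) k :=
  aeval (Fin.insertNth j 1 X)

theorem deh_X_self (j : Fin 3) : deh j (X j : MvPolynomial (Fin 3) k) = 1 := by
  simp [deh]

theorem deh_X_succAbove (j : Fin 3) (i : Fin 2) :
    deh j (X (j.succAbove i) : MvPolynomial (Fin 3) k) = X i := by
  simp [deh]

/-- Homogenise in degree `d` with the variable `j`. -/
def homog (j : Fin 3) (d : ℕ) : MvPolynomial (Fin 2) k →ₗ[k] MvPolynomial (Fin 3) k :=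
  ∑ n ∈ Finset.range (d + 1), LinearMap.mulRight k (X j ^ (d - n)) ∘ₗ
    (rename j.succAbove).toLinearMap ∘ₗ homogeneousComponent n

theorem homog_apply (j : Fin 3) (d : ℕ) (g : MvPolynomial (Fin 2) k) :
    homog j d g = ∑ n ∈ Finset.range (d + 1),
      rename j.succAbove (homogeneousComponent n g) * X j ^ (d - n) := by
  simp [homog]

theorem homog_isHomogeneous (j : Fin 3) (d : ℕ) (g : MvPolynomial (Fin 2) k) :
    (homog j d g).IsHomogeneous d := by
  rw [homog_apply]
  refine IsHomogeneous.sum _ _ _ fun n hn => ?_
  have h := ((homogeneousComponent_isHomogeneous n g).rename_isHomogeneous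
    (f := j.succAbove)).mul ((isHomogeneous_X k j).pow (d - n))
  rwa [one_mul, Nat.add_sub_cancel' (Nat.lt_succ_iff.mp (Finset.mem_range.mp hn))] at h

theorem deh_homog (j : Fin 3) {d : ℕ} {g : MvPolynomial (Fin 2) k} (hg : g.totalDegree ≤ d) :
    deh j (homog j d g) = g := by
  have h : ∀ p : MvPolynomial (Fin 2) k, deh j (rename j.succAbove p) = p := fun p => by
    have h' : (deh j).comp (rename j.succAbove) = AlgHom.id k (MvPolynomial (Fin 2) k) :=
      algHom_ext fun i => by simp [deh_X_succAbove]
    exact DFunLike.congr_fun h' p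
  rw [homog_apply, map_sum]
  simp only [map_mul, map_pow, deh_X_self, one_pow, mul_one, h]
  conv_rhs => rw [← sum_homogeneousComponent g]
  refine (Finset.sum_subset (Finset.range_mono (Nat.succ_le_succ hg)) fun n _ hn => ?_).symm
  rw [Finset.mem_range] at hn
  exact homogeneousComponent_eq_zero _ _ (by omega)

theorem totalDegree_deh_le (j : Fin 3) {d : ℕ} {F : MvPolynomial (Fin 3) k}
    (hF : F.IsHomogeneous d) : (deh j F).totalDegree ≤ d := by
  conv_lhs => rw [F.as_sum, map_sum]
  refine (totalDegree_finsetSum _ _).trans (Finset.sup_le fun s hs => ?_)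
  rw [deh, aeval_monomial, MvPolynomial.algebraMap_eq]
  refine (totalDegree_mul _ _).trans ?_
  rw [totalDegree_C, zero_add, Finsupp.prod_fintype _ _ fun _ => pow_zero _]
  refine (totalDegree_finsetProd _ _).trans ?_
  have hd : ∑ i, s i = d := by
    have h := hF (mem_support_iff.mp hs)
    rw [Finsupp.weight_apply, Finsupp.sum_fintype _ _ (by simp)] at h
    simpa using h
  rw [← hd]
  refine Finset.sum_le_sum fun i _ => (totalDegree_pow _ _).trans ?_
  refine le_trans (Nat.mul_le_mul_left _ ?_) (mul_one _).le
  induction i using Fin.succAboveCases j <;> simp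

variable (k) in
/-- The forms of degree `d`. -/
abbrev Form (d : ℕ) : Type _ := ↥(homogeneousSubmodule (Fin 3) k d)

theorem finrank_form (d : ℕ) : Module.finrank k (Form k d) = (d + 2).choose 2 :=
  FA.BezoutCurves.finrank_homogeneous d

instance (d : ℕ) : Module.Finite k (Form k d) :=
  FiniteDimensional.of_finrank_pos (by rw [finrank_form]; exact Nat.choose_pos (by omega))

/-- The chart on forms of degree `d`. -/
def chartMap (j : Fin 3) (d : ℕ) : Form k d →ₗ[k] Poly k d :=
  LinearMap.codRestrict _ ((deh j).toLinearMap ∘ₗ (homogeneousSubmodule (Fin 3) k d).subtype)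
    fun F => (mem_restrictTotalDegree _ _ _).mpr
      (totalDegree_deh_le j ((mem_homogeneousSubmodule _ _).mp F.2))

theorem chartMap_bijective (j : Fin 3) (d : ℕ) :
    Function.Bijective (chartMap (k := k) j d) := by
  have hsurj : Function.Surjective (chartMap (k := k) j d) := fun g =>
    ⟨⟨homog j d g.1, (mem_homogeneousSubmodule _ _).mpr (homog_isHomogeneous j d _)⟩,
      Subtype.ext (deh_homog j ((mem_restrictTotalDegree _ _ _).mp g.2))⟩
  haveI : Module.Finite k (restrictTotalDegree (Fin 2) k d) :=
    FiniteDimensional.of_finrank_pos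
      (by rw [FA.FiniteKakeya.finrank_totalDegree_le]; exact Nat.choose_pos (by omega))
  exact ⟨(LinearMap.injective_iff_surjective_of_finrank_eq_finrank
    (by rw [finrank_form, FA.FiniteKakeya.finrank_totalDegree_le, add_comm])).mpr hsurj, hsurj⟩

theorem homog_deh (j : Fin 3) {d : ℕ} {F : MvPolynomial (Fin 3) k} (hF : F.IsHomogeneous d) :
    homog j d (deh j F) = F :=
  congrArg Subtype.val ((chartMap_bijective j d).1
    (a₁ := ⟨_, (mem_homogeneousSubmodule _ _).mpr (homog_isHomogeneous j d (deh j F))⟩)
    (a₂ := ⟨F, (mem_homogeneousSubmodule _ _).mpr hF⟩)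
    (Subtype.ext (deh_homog j (totalDegree_deh_le j hF))))

theorem pderiv_deh (j : Fin 3) (i : Fin 2) (F : MvPolynomial (Fin 3) k) :
    pderiv i (deh j F) = deh j (pderiv (j.succAbove i) F) := by
  induction F using MvPolynomial.induction_on with
  | C a => simp [deh]
  | add u v hu hv => simp [hu, hv]
  | mul_X u l hu =>
    rw [map_mul, pderiv_mul, pderiv_mul, map_add, map_mul, map_mul, hu]
    congr 1
    induction l using Fin.succAboveCases j with
    | x => rw [deh_X_self, pderiv_one, pderiv_X_of_ne (Fin.succAbove_ne j i).symm, map_zero]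
    | p l =>
      rw [deh_X_succAbove]
      rcases eq_or_ne l i with rfl | h
      · rw [pderiv_X_self, pderiv_X_self, map_one]
      · rw [pderiv_X_of_ne h, pderiv_X_of_ne (fun e => h (Fin.succAbove_right_injective e)),
          map_zero]

theorem aeval_deh {K : Type*} [CommRing K] [Algebra k K] (j : Fin 3) (Q : Fin 2 → K)
    (F : MvPolynomial (Fin 3) k) : aeval Q (deh j F) = aeval (Fin.insertNth j 1 Q) F := by
  have h : (aeval Q).comp (deh (k := k) j) = aeval (Fin.insertNth j 1 Q : Fin 3 → K) :=
    algHom_ext fun l => by
      induction l using Fin.succAboveCases j <;> simp [deh]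
  exact DFunLike.congr_fun h F

end FA.ProjBertini
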