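import Fermat.Agent.ProjBertini.Charts

/-!
# Jets at finitely many points of the projective plane

A point is read in the chart of its last nonzero coordinate. Two of them, not conjugate, are
separated by a form, so their jets are independent in every large degree.
-/

set_option autoImplicit false
set_option linter.style.openClassical false
set_option linter.style.haveILetI false
set_option linter.unusedSectionVars false

noncomputable section

open scoped Classical

namespace FA.ProjBertini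

open MvPolynomial FA.PlaneBertini

variable {k : Type*} [Field k] [Fintype k]

/-- The points of the chart at `j` whose later coordinates vanish. -/
def Stratum (j : Fin 3) (Q : Pt k) : Prop := ∀ i, j < j.succAbove i → Q i = 0

/-- The lift of a point of a chart. -/
def liftPt (j : Fin 3) (Q : Pt k) : Fin 3 → AlgebraicClosure k := Fin.insertNth j 1 Q

theorem liftPt_of_lt {j l : Fin 3} {Q : Pt k} (hQ : Stratum j Q) (h : j < l) :
    liftPt j Q l = 0 := by
  induction l using Fin.succAboveCases j with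
  | x => exact absurd h (lt_irrefl _)
  | p i => rw [liftPt, Fin.insertNth_apply_succAbove, hQ i h]

theorem stratum_stable (j : Fin 3) (P Q : Pt k) (h : Q ∈ orbitPt k P) :
    Stratum j Q ↔ Stratum j P := by
  obtain ⟨n, rfl⟩ := mem_orbitPt.mp h
  simp only [Stratum, iterate_frobPt,
    pow_eq_zero_iff (pow_ne_zero _ (Fintype.card_ne_zero (α := k)))]

theorem card_stratum (j : Fin 3) {n : ℕ} (hn : n ≠ 0) :
    ((fixPts k n).filter (Stratum j)).card = (Fintype.card k ^ n) ^ (j : ℕ) := by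
  set R := ((Polynomial.X ^ Fintype.card k ^ n - Polynomial.X :
    Polynomial (AlgebraicClosure k)).roots).toFinset with hR
  have h0 : (0 : AlgebraicClosure k) ∈ R := by
    have hne : (Polynomial.X ^ Fintype.card k ^ n - Polynomial.X :
        Polynomial (AlgebraicClosure k)) ≠ 0 :=
      FiniteField.X_pow_card_pow_sub_X_ne_zero (AlgebraicClosure k) hn Fintype.one_lt_card
    rw [hR, Multiset.mem_toFinset, Polynomial.mem_roots hne]
    simp [zero_pow (pow_ne_zero n (Fintype.card_ne_zero (α := k)))]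
  have hset : (fixPts k n).filter (Stratum j) =
      Fintype.piFinset fun i => if j < j.succAbove i then {0} else R := by
    ext Q
    simp only [fixPts, ← hR, Finset.mem_filter, Fintype.mem_piFinset, Stratum]
    constructor
    · rintro ⟨h1, h2⟩ i
      split
      · exact Finset.mem_singleton.mpr (h2 i ‹_›)
      · exact h1 i
    · intro h
      refine ⟨fun i => ?_, fun i hi => ?_⟩ <;> have := h i
      · split at this
        · rwa [Finset.mem_singleton.mp this]
        · exact this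
      · rwa [if_pos hi, Finset.mem_singleton] at this
  rw [hset, Fintype.card_piFinset, Fin.prod_univ_two, ← card_roots_frobenius (k := k) hn, ← hR]
  fin_cases j <;> simp [Fin.succAbove, pow_two]

/-- **Two points are separated by a form.** -/
theorem exists_separating_form {j j' : Fin 3} {Q Q' : Pt k} (hQ : Stratum j Q)
    (hQ' : Stratum j' Q') (h : j = j' → Q' ∉ orbitPt k Q) :
    ∃ (e : ℕ) (l : MvPolynomial (Fin 3) k),
      l.IsHomogeneous e ∧ aeval (liftPt j Q) l = 0 ∧ aeval (liftPt j' Q') l ≠ 0 := by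
  rcases lt_trichotomy j j' with hlt | rfl | hgt
  · exact ⟨1, X j', isHomogeneous_X k j', by rw [aeval_X, liftPt_of_lt hQ hlt],
      by rw [aeval_X, liftPt, Fin.insertNth_apply_same]; exact one_ne_zero⟩
  · obtain ⟨g, hg, hg'⟩ := exists_separating (h rfl)
    refine ⟨g.totalDegree, homog j g.totalDegree g, homog_isHomogeneous _ _ _, ?_, ?_⟩
    · rw [liftPt, ← aeval_deh, deh_homog j le_rfl, hg]
    · rw [liftPt, ← aeval_deh, deh_homog j le_rfl]
      exact hg'
  · obtain ⟨i, hi⟩ := Fin.exists_succAbove_eq (ne_of_lt hgt)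
    obtain ⟨u, -, hu, hu'⟩ := exists_simple_zero Q i
    have hu0 : u ≠ 0 := fun h0 => hu' (by rw [h0, Polynomial.derivative_zero, map_zero])
    refine ⟨u.natDegree, ∑ n ∈ Finset.range (u.natDegree + 1),
      C (u.coeff n) * X j' ^ n * X j ^ (u.natDegree - n), ?_, ?_, ?_⟩
    · refine IsHomogeneous.sum _ _ _ fun n hn => ?_
      have h := (((isHomogeneous_X k j').pow n).C_mul (u.coeff n)).mul
        ((isHomogeneous_X k j).pow (u.natDegree - n))
      rwa [one_mul, one_mul, Nat.add_sub_cancel' (Nat.lt_succ_iff.mp (Finset.mem_range.mp hn))] at h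
    · rw [Polynomial.aeval_eq_sum_range] at hu
      have h1 : liftPt j Q j' = Q i := by rw [← hi, liftPt, Fin.insertNth_apply_succAbove]
      have h2 : liftPt j Q j = 1 := Fin.insertNth_apply_same _ _ _
      simpa [h1, h2, Algebra.smul_def] using hu
    · have h1 : liftPt j' Q' j' = 1 := Fin.insertNth_apply_same _ _ _
      have h2 : liftPt j' Q' j = 0 := liftPt_of_lt hQ' hgt
      rw [map_sum, Finset.sum_eq_single u.natDegree]
      · simp [h1, hu0]
      · intro n hn hne
        have : u.natDegree - n ≠ 0 := by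
          have := Finset.mem_range.mp hn
          omega
        simp [h2, zero_pow this]
      · simp

/-- The jet in the chart at `j` of the form of degree `d` with the given last chart. -/
def chartJet (j : Fin 3) (d : ℕ) (Q : Pt k) :
    MvPolynomial (Fin 2) k →ₗ[k] (Fin 3 → valueAlg k Q) :=
  jet k Q ∘ₗ (deh j).toLinearMap ∘ₗ homog 2 d

theorem chartJet_apply (j : Fin 3) (d : ℕ) (Q : Pt k) (g : MvPolynomial (Fin 2) k) :
    chartJet j d Q g = jet k Q (deh j (homog 2 d g)) := by
  rw [chartJet, LinearMap.comp_apply, LinearMap.comp_apply, AlgHom.toLinearMap_apply]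

theorem chartJet_eq_zero_iff (j : Fin 3) (d : ℕ) (Q : Pt k) (g : MvPolynomial (Fin 2) k) :
    chartJet j d Q g = 0 ↔ SingularAt Q (deh j (homog 2 d g)) := by
  rw [chartJet_apply, jet_eq_zero_iff]

/-- **Jets in every large degree.** -/
theorem exists_degree_chartJets {S : Fin 3 → Finset (Pt k)} (hst : ∀ j, ∀ Q ∈ S j, Stratum j Q)
    (hS : ∀ j, ∀ P ∈ S j, ∀ Q ∈ S j, Q ∈ orbitPt k P → Q = P) :
    ∃ D, ∀ d, D ≤ d → ∀ w : ∀ x : (Σ j, S j), Fin 3 → valueAlg k x.2.1,
      ∃ g : MvPolynomial (Fin 2) k, g.totalDegree ≤ d ∧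
        ∀ x, chartJet x.1 d x.2.1 g = w x := by
  have hsep : ∀ x y : (Σ j, S j), ∃ (e : ℕ) (l : MvPolynomial (Fin 3) k), x ≠ y →
      l.IsHomogeneous e ∧ aeval (liftPt y.1 y.2.1) l = 0 ∧ aeval (liftPt x.1 x.2.1) l ≠ 0 := by
    rintro ⟨i, P⟩ ⟨j, Q⟩
    rcases eq_or_ne (⟨i, P⟩ : Σ j, S j) ⟨j, Q⟩ with h | h
    · exact ⟨0, 0, fun h' => absurd h h'⟩
    · obtain ⟨e, l, hl⟩ := exists_separating_form (hst j Q.1 Q.2) (hst i P.1 P.2) (fun hji => by
        subst hji
        exact fun hm => h (Sigma.ext rfl (heq_of_eq (Subtype.ext (hS j Q.1 Q.2 P.1 P.2 hm)))))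
      exact ⟨e, l, fun _ => hl⟩
  choose e l hl using hsep
  set L : (Σ j, S j) → MvPolynomial (Fin 3) k := fun x => ∏ y ∈ Finset.univ.erase x, l x y
  set deg : (Σ j, S j) → ℕ := fun x => ∑ y ∈ Finset.univ.erase x, e x y
  have hL : ∀ x, (L x ^ 2).IsHomogeneous (deg x * 2) := fun x =>
    (IsHomogeneous.prod _ _ _ fun y hy => (hl x y (Finset.ne_of_mem_erase hy).symm).1).pow 2
  have hne : ∀ x, aeval x.2.1 (deh x.1 (L x ^ 2)) ≠ 0 := fun x => by
    rw [aeval_deh, map_pow, map_prod]
    exact pow_ne_zero _ (Finset.prod_ne_zero_iff.mpr fun y hy =>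
      (hl x y (Finset.ne_of_mem_erase hy).symm).2.2)
  refine ⟨Finset.univ.sup fun x => deg x * 2 + 2 * degPt k x.2.1, fun d hd w => ?_⟩
  have hd' : ∀ x, deg x * 2 + 2 * degPt k x.2.1 ≤ d := fun x =>
    (Finset.le_sup (f := fun x => deg x * 2 + 2 * degPt k x.2.1) (Finset.mem_univ x)).trans hd
  have hjet : ∀ x : (Σ j, S j), ∃ g : MvPolynomial (Fin 2) k, g.totalDegree ≤ 2 * degPt k x.2.1 ∧
      jet k x.2.1 (deh x.1 (L x ^ 2) * g) = w x := fun x => exists_jet_mul_eq x.2.1 (hne x) (w x)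
  choose g hgd hg using hjet
  set F := ∑ x, L x ^ 2 * homog x.1 (d - deg x * 2) (g x)
  have hF : F.IsHomogeneous d := IsHomogeneous.sum _ _ _ fun x _ => by
    have h := (hL x).mul (homog_isHomogeneous x.1 (d - deg x * 2) (g x))
    rwa [Nat.add_sub_cancel' (by have := hd' x; omega)] at h
  refine ⟨deh 2 F, totalDegree_deh_le 2 hF, fun y => ?_⟩
  rw [chartJet_apply, homog_deh 2 hF, map_sum, map_sum, Fintype.sum_eq_single y]
  · rw [map_mul, deh_homog y.1 (le_trans (hgd y) (by have := hd' y; omega)), hg]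
  · intro x hxy
    rw [map_mul, map_pow]
    refine jet_sq_mul_eq_zero ?_ _
    rw [aeval_deh, map_prod]
    exact Finset.prod_eq_zero (Finset.mem_erase.mpr ⟨hxy.symm, Finset.mem_univ _⟩) (hl x y hxy).2.1

/-- **Independent conditions** under finitely many jointly surjective linear maps. -/
theorem proportion_pi {d : ℕ} {ι : Type*} [Fintype ι] {W : ι → Type*} [∀ i, AddCommGroup (W i)]
    [∀ i, Module k (W i)] [∀ i, Finite (W i)] (φ : ∀ i, MvPolynomial (Fin 2) k →ₗ[k] W i)
    (hφ : ∀ w : ∀ i, W i, ∃ f : MvPolynomial (Fin 2) k, f.totalDegree ≤ d ∧ ∀ i, φ i f = w i)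
    (p : ∀ i, W i → Prop) :
    proportion d (fun f => ∀ i, p i (φ i f)) =
      ∏ i, (Nat.card {w // p i w} : ℝ) / Nat.card (W i) := by
  have h := proportion_of_surjective (d := d) (LinearMap.pi φ)
    (fun w => (hφ w).imp fun f hf => ⟨hf.1, funext hf.2⟩) (fun w => ∀ i, p i (w i))
  simp only [LinearMap.pi_apply] at h
  rw [h, Nat.card_congr (Equiv.subtypePiEquivPi (p := p)), Nat.card_pi, Nat.card_pi, Nat.cast_prod,
    Nat.cast_prod, ← Finset.prod_div_distrib]

/-- **Arbitrary conditions on the jets at finitely many points.** -/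
theorem exists_proportion_chartConditions {S : Fin 3 → Finset (Pt k)}
    (hst : ∀ j, ∀ Q ∈ S j, Stratum j Q)
    (hS : ∀ j, ∀ P ∈ S j, ∀ Q ∈ S j, Q ∈ orbitPt k P → Q = P)
    (p : ∀ (_ : Fin 3) (Q : Pt k), (Fin 3 → valueAlg k Q) → Prop) :
    ∃ D, ∀ d, D ≤ d →
      proportion d (fun g : MvPolynomial (Fin 2) k =>
        ∀ j, ∀ Q ∈ S j, p j Q (chartJet j d Q g)) =
      ∏ j, ∏ Q ∈ S j, (Nat.card {w // p j Q w} : ℝ) / (Fintype.card k : ℝ) ^ (3 * degPt k Q) := by
  obtain ⟨D, hD⟩ := exists_degree_chartJets hst hS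
  refine ⟨D, fun d hd => ?_⟩
  have h := proportion_pi (d := d) (fun x : (Σ j, S j) => chartJet x.1 d x.2.1)
    (hD d hd) (fun x => p x.1 x.2.1)
  have hiff : ∀ g : MvPolynomial (Fin 2) k,
      (∀ x : (Σ j, S j), p x.1 x.2.1 (chartJet x.1 d x.2.1 g)) ↔
        ∀ j, ∀ Q ∈ S j, p j Q (chartJet j d Q g) := fun g =>
    ⟨fun h j Q hQ => h ⟨j, Q, hQ⟩, fun h x => h x.1 x.2.1 x.2.2⟩
  simp only [hiff] at h
  rw [h, Fintype.prod_sigma]
  refine Finset.prod_congr rfl fun j _ => ?_
  rw [← Finset.prod_coe_sort (S j)]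
  refine Finset.prod_congr rfl fun P _ => ?_
  rw [natCard_jetTarget, Nat.cast_pow]

theorem natCard_jet_ne_zero (Q : Pt k) :
    (Nat.card {w : Fin 3 → valueAlg k Q // w ≠ 0} : ℝ) =
      (Fintype.card k : ℝ) ^ (3 * degPt k Q) - 1 := by
  haveI := Fintype.ofFinite (Fin 3 → valueAlg k Q)
  rw [Nat.card_eq_fintype_card, Fintype.card_subtype_compl, Fintype.card_subtype_eq,
    ← Nat.card_eq_fintype_card, natCard_jetTarget, Nat.cast_sub (Nat.one_le_pow _ _
      Fintype.card_pos), Nat.cast_pow, Nat.cast_one]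

/-- **No singular point among finitely many.** -/
theorem exists_proportion_chartSmooth {S : Fin 3 → Finset (Pt k)}
    (hst : ∀ j, ∀ Q ∈ S j, Stratum j Q)
    (hS : ∀ j, ∀ P ∈ S j, ∀ Q ∈ S j, Q ∈ orbitPt k P → Q = P) :
    ∃ D, ∀ d, D ≤ d →
      proportion d (fun g : MvPolynomial (Fin 2) k =>
        ∀ j, ∀ Q ∈ S j, ¬ SingularAt Q (deh j (homog 2 d g))) =
      ∏ j, ∏ Q ∈ S j, (1 - ((Fintype.card k : ℝ) ^ (3 * degPt k Q))⁻¹) := by
  obtain ⟨D, hD⟩ := exists_proportion_chartConditions hst hS fun _ _ w => w ≠ 0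
  refine ⟨D, fun d hd => ?_⟩
  have h := hD d hd
  simp only [ne_eq, chartJet_eq_zero_iff] at h
  rw [h]
  refine Finset.prod_congr rfl fun j _ => Finset.prod_congr rfl fun Q _ => ?_
  have hq : (0 : ℝ) < (Fintype.card k : ℝ) := by exact_mod_cast Fintype.card_pos
  have hc := natCard_jet_ne_zero Q
  simp only [ne_eq] at hc
  rw [hc, sub_div, div_self (by positivity), one_div]

end FA.ProjBertini
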