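import Fermat.Agent.ProjBertini.Low
import Fermat.Agent.Tsen.AffineZeros
import Mathlib.RingTheory.MvPolynomial.EulerIdentity

/-!
# Poonen's theorem in the projective plane

The proportion of smooth forms of degree `d` tends to `(1 - 1/q) (1 - 1/q²) (1 - 1/q³)`, and a
smooth form is geometrically irreducible.
-/

set_option autoImplicit false
set_option linter.style.openClassical false
set_option linter.style.haveILetI false
set_option linter.unusedSectionVars false

noncomputable section

open scoped Classical Nat Topology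
open Filter

namespace FA.ProjBertini

open MvPolynomial FA.PlaneBertini

variable {k : Type*} [Field k] [Fintype k]

/-- Changing the chart preserves proportions. -/
theorem proportion_chart (j : Fin 3) (d : ℕ) (t : MvPolynomial (Fin 2) k → Prop) :
    proportion d (fun g => t (deh j (homog 2 d g))) = proportion d t := by
  let e : Poly k d ≃ Poly k d := (Equiv.ofBijective _ (chartMap_bijective 2 d)).symm.trans
    (Equiv.ofBijective _ (chartMap_bijective j d))
  have he : ∀ g : Poly k d, (e g).1 = deh j (homog 2 d g.1) := fun g => by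
    obtain ⟨F, rfl⟩ := (chartMap_bijective 2 d).2 g
    simp only [e, Equiv.trans_apply, Equiv.ofBijective_symm_apply_apply, Equiv.ofBijective_apply]
    show deh j F.1 = deh j (homog 2 d (deh 2 F.1))
    rw [homog_deh 2 ((mem_homogeneousSubmodule _ _).mp F.2)]
  rw [proportion, proportion, Nat.card_congr (e.subtypeEquiv (q := fun g => t g.1) fun g => by
    rw [he])]

/-- Smoothness, read in the three charts. -/
def SmoothCharts (d : ℕ) (g : MvPolynomial (Fin 2) k) : Prop :=
  ∀ j, ∀ Q : Pt k, Stratum j Q → ¬ SingularAt Q (deh j (homog 2 d g))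

variable (k) in
/-- The limit: the inverse of the zeta function of the plane at `3`. -/
def zetaFactor : ℝ := ∏ j : Fin 3, (1 - ((Fintype.card k : ℝ) ^ (3 - (j : ℕ)))⁻¹)

theorem tendsto_eulerProd_strata :
    Tendsto (fun r => ∏ j : Fin 3, eulerProdOn k (Stratum j) (r !)) atTop (𝓝 (zetaFactor k)) :=
  tendsto_finsetProd _ fun j _ => tendsto_eulerProdOn (stratum_stable j)
    (Nat.lt_succ_iff.mp j.2) fun _ hn => card_stratum j hn

/-- The forms with no singular point of low degree are almost all smooth. -/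
theorem proportion_unsmooth_le (p : ℕ) [Fact p.Prime] [CharP k p] {d : ℕ} (hd : 1 ≤ d) (r : ℕ) :
    proportion d (fun g : MvPolynomial (Fin 2) k => (∀ j, ∀ Q ∈ fixPts k (r !), Stratum j Q →
        ¬ SingularAt Q (deh j (homog 2 d g))) ∧ ¬ SmoothCharts d g) ≤
      3 * ((Fintype.card k : ℝ)⁻¹ ^ r +
        ((d : ℝ) + 1) ^ 4 / (Fintype.card k : ℝ) ^ (d / (3 * p))) := by
  let err : MvPolynomial (Fin 2) k → Prop := fun f =>
    (∃ Q : Pt k, r < degPt k Q ∧ degPt k Q ≤ d / 2 ∧ SingularAt Q f) ∨
      ∃ Q : Pt k, d / (3 * p) ≤ degPt k Q ∧ SingularAt Q f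
  have herr : proportion d err ≤ (Fintype.card k : ℝ)⁻¹ ^ r +
      ((d : ℝ) + 1) ^ 4 / (Fintype.card k : ℝ) ^ (d / (3 * p)) :=
    (proportion_or_le _ _ _).trans
      (add_le_add (proportion_medium_le d r) (proportion_high_le p hd))
  refine le_trans (proportion_mono (t := fun g => ∃ j ∈ (Finset.univ : Finset (Fin 3)),
    err (deh j (homog 2 d g))) ?_) ?_
  · intro g _ ⟨hg, hns⟩
    simp only [SmoothCharts, not_forall, not_not] at hns
    obtain ⟨j, Q, hQ, hs⟩ := hns
    refine ⟨j, Finset.mem_univ _, ?_⟩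
    have hr : r < degPt k Q := by
      by_contra! hle
      exact hg j Q ((mem_fixPts_iff_dvd r.factorial_ne_zero).mpr
        (Nat.dvd_factorial (degPt_pos Q) hle)) hQ hs
    rcases le_or_gt (degPt k Q) (d / 2) with h | h
    · exact Or.inl ⟨Q, hr, h, hs⟩
    · refine Or.inr ⟨Q, le_trans ?_ h.le, hs⟩
      exact Nat.div_le_div_left (by have := (Fact.out : p.Prime).pos; omega) (by norm_num)
  · refine le_trans (proportion_exists_le d _ _) ?_
    simp only [proportion_chart, Finset.sum_const, Finset.card_univ, Fintype.card_fin,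
      nsmul_eq_mul, Nat.cast_ofNat]
    linarith

/-- **The sieve**: a condition is met by smooth forms as often as its sieved proportions say. -/
theorem tendsto_proportion_smooth_and (C : ℕ → MvPolynomial (Fin 2) k → Prop) {L : ℕ → ℝ} {l : ℝ}
    (hL : Tendsto L atTop (𝓝 l))
    (hlow : ∀ᶠ r in atTop, ∃ D, ∀ d, D ≤ d → proportion d (fun g =>
      (∀ j, ∀ Q ∈ fixPts k (r !), Stratum j Q → ¬ SingularAt Q (deh j (homog 2 d g))) ∧ C d g) =
        L r) :
    Tendsto (fun d => proportion d (fun g => SmoothCharts d g ∧ C d g)) atTop (𝓝 l) := by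
  obtain ⟨p, hp⟩ := CharP.exists k
  have hpp : p.Prime := CharP.char_is_prime k p
  haveI : Fact p.Prime := ⟨hpp⟩
  set q : ℝ := (Fintype.card k : ℝ)
  have hq : 1 < q := by simp only [q]; exact_mod_cast Fintype.one_lt_card
  rw [Metric.tendsto_atTop]
  intro ε hε
  obtain ⟨r, ⟨hr1, hr2⟩, D, hD⟩ := (((Metric.tendsto_nhds.mp hL (ε / 7) (by linarith)).and
    ((tendsto_pow_atTop_nhds_zero_of_lt_one (by positivity)
      (inv_lt_one_of_one_lt₀ hq)).eventually
        (gt_mem_nhds (by linarith : (0 : ℝ) < ε / 7)))).and hlow).exists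
  obtain ⟨D', hD'⟩ := eventually_atTop.mp ((tendsto_high p hpp.pos hq).eventually
    (gt_mem_nhds (by linarith : (0 : ℝ) < ε / 7)))
  refine ⟨max D (max D' 1), fun d hd => ?_⟩
  simp only [max_le_iff] at hd
  obtain ⟨hdD, hdD', hd1⟩ := hd
  have hup : proportion d (fun g => SmoothCharts d g ∧ C d g) ≤ L r :=
    (proportion_mono fun g _ h => And.intro (fun j Q _ => h.1 j Q) h.2).trans_eq (hD d hdD)
  have hdown : L r ≤ proportion d (fun g => SmoothCharts d g ∧ C d g) +
      3 * (q⁻¹ ^ r + ((d : ℝ) + 1) ^ 4 / q ^ (d / (3 * p))) :=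
    le_trans (hD d hdD).ge (le_trans (proportion_mono fun g _ hg =>
      (em (SmoothCharts d g)).imp (fun h => ⟨h, hg.2⟩) fun h => ⟨hg.1, h⟩)
        ((proportion_or_le _ _ _).trans (add_le_add le_rfl (proportion_unsmooth_le p hd1 r))))
  have h3 := hD' d hdD'
  rw [Real.dist_eq, abs_sub_lt_iff] at hr1 ⊢
  constructor <;> linarith

/-- **Poonen's theorem in the projective plane**, in the last chart. -/
theorem tendsto_proportion_smoothCharts :
    Tendsto (fun d => proportion d (SmoothCharts (k := k) d)) atTop (𝓝 (zetaFactor k)) := by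
  refine (tendsto_proportion_smooth_and (fun _ _ => True) tendsto_eulerProd_strata
    (Eventually.of_forall fun r => ?_)).congr fun d => by simp only [and_true]; rfl
  obtain ⟨D, hD⟩ := exists_proportion_chartSmooth
    (S := fun j => repSetOn k (Stratum j) (r !))
    (fun j Q hQ => (mem_repSetOn (stratum_stable j) r.factorial_ne_zero hQ).2)
    fun j => repSetOn_inequivalent
  refine ⟨D, fun d hd => Eq.trans ?_ (hD d hd)⟩
  congr 1
  funext g
  simp only [and_true]
  exact propext (forall_congr' fun j =>
    (forall_repSetOn_iff (stratum_stable j) r.factorial_ne_zero _).symm)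

end FA.ProjBertini

namespace FA.ProjBertini

open MvPolynomial FA.PlaneBertini

/-- A form is singular at `P` if it and its partial derivatives vanish there. -/
def FormSingularAt {k K : Type*} [CommRing k] [CommRing K] [Algebra k K] (P : Fin 3 → K)
    (F : MvPolynomial (Fin 3) k) : Prop :=
  aeval P F = 0 ∧ ∀ i, aeval P (pderiv i F) = 0

theorem aeval_smul_form {k K : Type*} [CommRing k] [CommRing K] [Algebra k K] {d : ℕ}
    {F : MvPolynomial (Fin 3) k} (hF : F.IsHomogeneous d) (c : K) (P : Fin 3 → K) :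
    aeval (c • P) F = c ^ d * aeval P F := by
  rw [aeval_def, aeval_def, eval₂_eq', eval₂_eq', Finset.mul_sum]
  refine Finset.sum_congr rfl fun s hs => ?_
  have hsum : ∑ i, s i = d := by
    have h := hF (mem_support_iff.mp hs)
    rw [Finsupp.weight_apply, Finsupp.sum_fintype _ _ (by simp)] at h
    simpa using h
  simp only [Pi.smul_apply, smul_eq_mul, mul_pow, Finset.prod_mul_distrib,
    Finset.prod_pow_eq_pow_sum, hsum]
  ring

variable {k : Type*} [Field k] [Fintype k]

theorem singularAt_deh_iff {d : ℕ} {F : MvPolynomial (Fin 3) k} (hF : F.IsHomogeneous d)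
    (j : Fin 3) (Q : Pt k) :
    SingularAt Q (deh j F) ↔ FormSingularAt (liftPt j Q) F := by
  have h0 : aeval Q (deh j F) = aeval (liftPt j Q) F := aeval_deh j Q F
  have h1 : ∀ i, aeval Q (pderiv i (deh j F)) = aeval (liftPt j Q) (pderiv (j.succAbove i) F) :=
    fun i => by rw [pderiv_deh]; exact aeval_deh j Q _
  simp only [SingularAt, FormSingularAt, h0, h1]
  refine ⟨fun ⟨hf, hx, hy⟩ => ⟨hf, fun l => ?_⟩, fun ⟨hf, h⟩ => ⟨hf, h _, h _⟩⟩
  have hsub : ∀ i, aeval (liftPt j Q) (pderiv (j.succAbove i) F) = 0 :=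
    Fin.forall_fin_two.mpr ⟨hx, hy⟩
  induction l using Fin.succAboveCases j with
  | p i => exact hsub i
  | x =>
    have h := congrArg (aeval (liftPt j Q)) hF.sum_X_mul_pderiv
    rw [Fin.sum_univ_succAbove _ j, map_add, map_sum, Finset.sum_eq_zero (fun i _ => by
        rw [map_mul, hsub, mul_zero]), add_zero, map_mul, aeval_X, map_nsmul, hf,
      smul_zero] at h
    simpa [liftPt] using h

/-- Smoothness in the charts is smoothness. -/
theorem smoothCharts_iff {d : ℕ} {F : MvPolynomial (Fin 3) k} (hF : F.IsHomogeneous d) :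
    SmoothCharts d (deh 2 F) ↔
      ∀ P : Fin 3 → AlgebraicClosure k, P ≠ 0 → ¬ FormSingularAt P F := by
  simp only [SmoothCharts, homog_deh 2 hF, singularAt_deh_iff hF]
  constructor
  · intro h P hP hs
    obtain ⟨l, hl⟩ := Function.ne_iff.mp hP
    set S := Finset.univ.filter fun i => P i ≠ 0
    have hne : S.Nonempty := ⟨l, Finset.mem_filter.mpr ⟨Finset.mem_univ _, hl⟩⟩
    set j := S.max' hne
    have hj : P j ≠ 0 := (Finset.mem_filter.mp (S.max'_mem hne)).2
    have hlift : liftPt j (fun i => P (j.succAbove i) / P j) = (P j)⁻¹ • P := by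
      funext i
      induction i using Fin.succAboveCases j with
      | x => simp [liftPt, hj]
      | p i => simp [liftPt, div_eq_inv_mul]
    have hs' : FormSingularAt (liftPt j fun i => P (j.succAbove i) / P j) F := by
      rw [hlift]
      exact ⟨by rw [aeval_smul_form hF, hs.1, mul_zero],
        fun i => by rw [aeval_smul_form hF.pderiv, hs.2 i, mul_zero]⟩
    refine h j _ (fun i hi => ?_) hs'
    rw [div_eq_zero_iff]
    refine Or.inl (by_contra fun hne' => ?_)
    exact absurd (S.le_max' _ (Finset.mem_filter.mpr ⟨Finset.mem_univ _, hne'⟩)) hi.not_ge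
  · intro h j Q _
    exact h _ fun h0 => one_ne_zero (α := AlgebraicClosure k)
      (by simpa [liftPt] using congrFun h0 j)

/-- **A smooth form is irreducible** over an algebraically closed field. -/
theorem irreducible_of_smooth {K : Type*} [Field K] [IsAlgClosed K] {d : ℕ}
    {F : MvPolynomial (Fin 3) K} (hd : d ≠ 0) (hF : F.IsHomogeneous d)
    (hs : ∀ P : Fin 3 → K, P ≠ 0 → ¬ FormSingularAt P F) : Irreducible F := by
  have hF0 : F ≠ 0 := fun h => hs (fun _ => 1) (fun h' => one_ne_zero (congrFun h' 0))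
    (by simp [FormSingularAt, h])
  have hunit : ∀ G : MvPolynomial (Fin 3) K, G ≠ 0 → G.totalDegree = 0 → IsUnit G :=
    fun G hG h0 => isUnit_iff_totalDegree_of_isReduced.mpr ⟨Ne.isUnit fun hc => hG (by
      rw [totalDegree_eq_zero_iff_eq_C.mp h0, hc, map_zero]), h0⟩
  refine ⟨fun hu => hd ?_, fun A B hAB => ?_⟩
  · rw [← hF.totalDegree hF0]
    exact (isUnit_iff_totalDegree_of_isReduced.mp hu).2
  by_contra! hno
  have hA0 : A ≠ 0 := left_ne_zero_of_mul (hAB ▸ hF0)
  have hB0 : B ≠ 0 := right_ne_zero_of_mul (hAB ▸ hF0)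
  have hsum : A.totalDegree + B.totalDegree = d := by
    rw [← totalDegree_mul_of_isDomain hA0 hB0, ← hAB, hF.totalDegree hF0]
  -- both factors pass through the origin
  have key : ∀ A B : MvPolynomial (Fin 3) K, F = A * B → B ≠ 0 → B.totalDegree < d →
      constantCoeff A = 0 := by
    intro A B hAB hB0 hlt
    by_contra hc
    refine hB0 (MvPolynomial.ext _ _ fun s => ?_)
    rw [coeff_zero]
    induction hn : s.degree using Nat.strong_induction_on generalizing s with
    | _ n ih =>
      by_contra hne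
      have hsd : s.degree ≤ B.totalDegree := le_totalDegree (mem_support_iff.mpr hne)
      have h := congrArg (coeff s) hAB
      rw [hF.coeff_eq_zero (by omega), coeff_mul,
        Finset.sum_eq_single ((0 : Fin 3 →₀ ℕ), s)] at h
      · exact mul_ne_zero hc hne h.symm
      · rintro ⟨a, b⟩ hab hne'
        rw [Finset.HasAntidiagonal.mem_antidiagonal] at hab
        dsimp only at hab ⊢
        have ha : a.degree ≠ 0 := fun h0 => hne' (by
          rw [Finsupp.degree_eq_zero_iff] at h0
          subst h0
          rw [← hab, zero_add])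
        have hadd : a.degree + b.degree = s.degree := by rw [← map_add, hab]
        rw [ih b.degree (by omega) b rfl, mul_zero]
      · simp [Finset.HasAntidiagonal.mem_antidiagonal]
  have hA1 : A.totalDegree ≠ 0 := fun h => hno.1 (hunit A hA0 h)
  have hB1 : B.totalDegree ≠ 0 := fun h => hno.2 (hunit B hB0 h)
  obtain ⟨P, hP, hz⟩ := FA.Tsen.exists_ne_zero_common_zero ![A, B]
    (Fin.forall_fin_two.mpr ⟨key A B hAB hB0 (by omega),
      key B A (hAB.trans (mul_comm A B)) hA0 (by omega)⟩) (by simp)
  have hPA : aeval P A = 0 := hz 0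
  have hPB : aeval P B = 0 := hz 1
  refine hs P hP ⟨?_, fun i => ?_⟩
  · rw [hAB, map_mul, hPA, zero_mul]
  · rw [hAB, pderiv_mul, map_add, map_mul, map_mul, hPA, hPB, mul_zero, zero_mul, add_zero]

end FA.ProjBertini
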